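/-
DS / GEO, chapter G-HECKE (HEQ part), brick HEQ-G2 (helper20): generic twin of
`ES/HEQ/KummerHeckeMain19`: **Hecke-equivariance of the Kummer map** for an ARBITRARY
correspondence `(α, β) : F ⇉ F'` of function fields over a field `K` (the Prelude's generic
`AlgebraicCurve.Pic0.correspondence β α`) and ABSTRACT Hecke representatives `H : HeckeReps Γ I`
(helper78's `DS/Per1/HeckeReps`), given an analytic setup `S` in the sense of
`ES/HEQ/KummerHeckeAbs19.Setup` whose right action is `slMer` and whose constants are `constHom`.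

* `constHom : ℂˣ →* MerH` (constants), `constHom_injective`;
* `IsKummerMap Γ an n κ` : the characterisation of the Kummer map
  `κ : Pic⁰(F)[n] → Hom(Γ, ℂˣ)` ("`x = [D]`, `n D = div f`, `h ^ n = an f` ⟹
  `h ∘ γ = κ x γ · h`", and such `h ≠ 0` exist);
* `kummer_corr` : `κ (T x) = H.dMul (κ x)` for `T = Pic0.correspondence β α …`;
* `kummer_corr'` : the same when the class `T x` is given with an arbitrary proof of torsion.

Specialisations: `T_p` on `Γ₁(M)` (`H = heckeRepsT …`, `I = P¹(𝔽_p)`) and the diamond operators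
(`H = diamondReps …`, `I = Unit`, `F' = F`, `α = id`, `β = ` the automorphism).
-/
import Fermat.Agent.ES.HEQ.KummerHeckeAbs19
import Fermat.Agent.ES.KUM.CReal5
import Fermat.Agent.DS.Per1.HeckeReps

set_option autoImplicit false
set_option linter.dupNamespace false
set_option linter.style.haveILetI false
set_option linter.unusedSectionVars false

open UpperHalfPlane hiding I
open scoped Manifold MatrixGroups
open AlgebraicCurve

noncomputable section

namespace Fermat.Agent.DS.G.ES.HEQ.KummerHeckeG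

open Fermat.Agent.X0 Fermat.Agent.X0.SurjPoint Fermat.Agent.ES.KUM
open Fermat.Agent.ES.HEQ.KummerHeckeAbs19
open Fermat.Agent.DS.Per1.HeckeReps

/-! ### Constants -/

/-- the constants `ℂˣ → MerH`. -/
def constHom : ℂˣ →* MerH :=
  (((algebraMap HolH MerH).comp (algebraMap ℂ HolH) : ℂ →+* MerH) : ℂ →* MerH).comp
    (Units.coeHom ℂ)

theorem constHom_apply (a : ℂˣ) :
    constHom a = algebraMap HolH MerH (algebraMap ℂ HolH (a : ℂ)) := rfl

theorem constHom_injective : Function.Injective constHom := by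
  intro a b h
  apply Units.ext
  have h1 : Function.Injective ((algebraMap HolH MerH).comp (algebraMap ℂ HolH) : ℂ →+* MerH) :=
    RingHom.injective _
  exact h1 h

theorem slMer_constHom (γ : SL(2, ℤ)) (a : ℂˣ) : slMer γ (constHom a) = constHom a :=
  slMer_const γ (a : ℂ)

/-! ### The characterisation of the Kummer map -/

section Kummer

variable {K F : Type*} [Field K] [Field F] [Algebra K F]

/-- The characterisation of the Kummer map `κ : Pic⁰(F)[n] → Hom(Γ, ℂˣ)` attached to an analytic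
realisation `an : F →+* MerH` of the function field. -/
def IsKummerMap (Γ : Subgroup SL(2, ℤ)) (an : F →+* MerH) (n : ℕ)
    (κ : ↥(Pic0.torsion K F n) → (Γ →* ℂˣ)) : Prop :=
  ∀ (x : ↥(Pic0.torsion K F n)) (D : Divisor.degZero (K := K) (F := F)) (f : F),
    Pic0.mk D = (x : Pic0 K F) → f ≠ 0 →
    (∀ v : Place K F, ((n : ℤ) • (D : Divisor K F)) v = v.ord f) →
      (∃ h : MerH, h ≠ 0 ∧ h ^ n = an f) ∧
        ∀ h : MerH, h ≠ 0 → h ^ n = an f →
          ∀ γ : Γ, slMer (γ : SL(2, ℤ)) h = constHom (κ x γ) * h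

/-- every torsion class has a representative `D` with `n D = div f`. -/
theorem exists_rep_div (n : ℕ) (x : ↥(Pic0.torsion K F n)) :
    ∃ (D : Divisor.degZero (K := K) (F := F)) (f : F),
      Pic0.mk D = (x : Pic0 K F) ∧ f ≠ 0 ∧
        ∀ v : Place K F, ((n : ℤ) • (D : Divisor K F)) v = v.ord f := by
  obtain ⟨D, hD⟩ := Pic0.mk_surjective (x : Pic0 K F)
  have h1 : (n : ℤ) • Pic0.mk D = 0 := by
    rw [hD]
    exact Pic0.mem_torsion.mp x.2
  have h2 : Pic0.mk ((n : ℤ) • D) = 0 := h1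
  have h3 : ((n : ℤ) • D) ∈
      (Divisor.principal (K := K) (F := F)).addSubgroupOf
        (Divisor.degZero (K := K) (F := F)) :=
    (QuotientAddGroup.eq_zero_iff _).mp h2
  rw [AddSubgroup.mem_addSubgroupOf] at h3
  obtain ⟨f, hf, hDf⟩ := h3
  exact ⟨D, f, hD, hf, fun v => hDf v⟩

/-- Two Kummer maps (for the same realisation) agree. -/
theorem IsKummerMap.unique {Γ : Subgroup SL(2, ℤ)} {an : F →+* MerH} {n : ℕ}
    {κ κ' : ↥(Pic0.torsion K F n) → (Γ →* ℂˣ)} (hκ : IsKummerMap Γ an n κ)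
    (hκ' : IsKummerMap Γ an n κ') : κ = κ' := by
  funext x
  obtain ⟨D, f, hD, hf, hDf⟩ := exists_rep_div n x
  obtain ⟨⟨h, hh0, hhn⟩, hchar⟩ := hκ x D f hD hf hDf
  obtain ⟨-, hchar'⟩ := hκ' x D f hD hf hDf
  ext1 γ
  have e1 := hchar h hh0 hhn γ
  have e2 := hchar' h hh0 hhn γ
  exact constHom_injective (mul_right_cancel₀ hh0 (e1.symm.trans e2))

end Kummer

/-! ### Hecke equivariance -/

section Hecke

variable {K F F' : Type*} [Field K] [Field F] [Field F'] [Algebra K F] [Algebra K F']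
  [HasPrincipalDivisors K F'] [CharZero F]
  {α β : F →ₐ[K] F'} {Γ : Subgroup SL(2, ℤ)} {I : Type*} [Fintype I] {H : HeckeReps Γ I}

theorem correspondence_mem_torsion (hα : α.toRingHom.IsIntegral) (hβ : β.toRingHom.IsIntegral)
    (hFI : FundamentalIdentityAlong K β hβ) (hfin : FiniteAlong K α)
    (hN : NormFormulaAlong K α hfin) (n : ℕ) (x : ↥(Pic0.torsion K F n)) :
    Pic0.correspondence β α hβ hα hFI hfin hN (x : Pic0 K F) ∈ Pic0.torsion K F n := by
  rw [Pic0.mem_torsion, ← map_zsmul, Pic0.mem_torsion.mp x.2, map_zero]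

/-- **Hecke-equivariance of the Kummer map**, generic form: for an analytic setup `S` of the
correspondence `(α, β)` with right action `slMer` and constants `constHom`, the Kummer map
intertwines the correspondence `α_* β^*` on `Pic⁰(F)[n]` with the transfer operator `H.dMul`
on characters of `Γ`. -/
theorem kummer_corr'
    (S : Setup (K := K) α β (fun γ : Γ => H.perm γ) (fun (γ : Γ) (i : I) => H.coc γ i) MerH ℂˣ)
    (hR : ∀ (γ : Γ) (h : MerH), S.R γ h = slMer (γ : SL(2, ℤ)) h)
    (hc : ∀ a : ℂˣ, S.c a = constHom a)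
    (hα : α.toRingHom.IsIntegral) (hβ : β.toRingHom.IsIntegral)
    (hFI : FundamentalIdentityAlong K β hβ) (hfin : FiniteAlong K α)
    (hN : NormFormulaAlong K α hfin)
    {n : ℕ} {κ : ↥(Pic0.torsion K F n) → (Γ →* ℂˣ)} (hκ : IsKummerMap Γ S.an n κ)
    (x : ↥(Pic0.torsion K F n))
    (hx : Pic0.correspondence β α hβ hα hFI hfin hN (x : Pic0 K F) ∈ Pic0.torsion K F n) :
    κ ⟨Pic0.correspondence β α hβ hα hFI hfin hN (x : Pic0 K F), hx⟩ = H.dMul (κ x) := by
  classical
  obtain ⟨D, f, hD, hf, hDf⟩ := exists_rep_div n x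
  obtain ⟨⟨h, hh0, hhn⟩, hchar⟩ := hκ x D f hD hf hDf
  -- the witness at `x`
  have w : Witness S n f h (fun γ => κ x γ) :=
    ⟨hhn, fun γ => by rw [hR, hc]; exact hchar h hh0 hhn γ⟩
  have w' := w.hecke hfin
  -- the Hecke transform
  set DT : Divisor.degZero (K := K) (F := F) :=
    Pic0.degZeroCorrespondence β α hβ hα hFI D with hDT
  have hTx : Pic0.mk DT = Pic0.correspondence β α hβ hα hFI hfin hN (x : Pic0 K F) := by
    rw [← hD]
    rfl
  have hfT : normAlong α (β f) ≠ 0 := normAlong_ne_zero _ hfin ((map_ne_zero _).mpr hf)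
  have hDTf : ∀ v : Place K F, ((n : ℤ) • (DT : Divisor K F)) v = v.ord (normAlong α (β f)) := by
    intro v
    have h1 : ((n : ℤ) • (DT : Divisor K F)) =
        Divisor.correspondence β α hβ hα ((n : ℤ) • (D : Divisor K F)) := by
      rw [map_zsmul]
      rfl
    rw [h1]
    exact correspondence_apply_eq_ord _ _ hβ hα hfin hN hf hDf v
  obtain ⟨-, hchar'⟩ := hκ ⟨Pic0.correspondence β α hβ hα hFI hfin hN (x : Pic0 K F), hx⟩
    DT _ hTx hfT hDTf
  have hroot0 : heckeRoot S h ≠ 0 := heckeRoot_ne_zero _ hh0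
  ext1 γ
  have e1 := hchar' _ hroot0 w'.pow γ
  have e2 := w'.smul γ
  rw [hR, hc] at e2
  have e3 : constHom (κ ⟨Pic0.correspondence β α hβ hα hFI hfin hN (x : Pic0 K F), hx⟩ γ)
      = constHom (∏ i, κ x (H.coc γ i)) :=
    mul_right_cancel₀ hroot0 (e1.symm.trans e2)
  rw [HeckeReps.dMul_apply]
  exact constHom_injective e3

/-- **Hecke-equivariance of the Kummer map**, with the canonical proof of torsion. -/
theorem kummer_corr
    (S : Setup (K := K) α β (fun γ : Γ => H.perm γ) (fun (γ : Γ) (i : I) => H.coc γ i) MerH ℂˣ)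
    (hR : ∀ (γ : Γ) (h : MerH), S.R γ h = slMer (γ : SL(2, ℤ)) h)
    (hc : ∀ a : ℂˣ, S.c a = constHom a)
    (hα : α.toRingHom.IsIntegral) (hβ : β.toRingHom.IsIntegral)
    (hFI : FundamentalIdentityAlong K β hβ) (hfin : FiniteAlong K α)
    (hN : NormFormulaAlong K α hfin)
    {n : ℕ} {κ : ↥(Pic0.torsion K F n) → (Γ →* ℂˣ)} (hκ : IsKummerMap Γ S.an n κ)
    (x : ↥(Pic0.torsion K F n)) :
    κ ⟨Pic0.correspondence β α hβ hα hFI hfin hN (x : Pic0 K F),
        correspondence_mem_torsion hα hβ hFI hfin hN n x⟩ = H.dMul (κ x) :=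
  kummer_corr' S hR hc hα hβ hFI hfin hN hκ x _

end Hecke

end Fermat.Agent.DS.G.ES.HEQ.KummerHeckeG
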