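/-
DS / GEO, chapter G-HECKE (HEQ part), brick HEQ-G4a (helper20): **from `±Γ` to `Γ`**.

The generic Kummer chapter works with a group `Γ'` containing `-1` (`CModel.Gam`, `LevelData.Gam`;
for the level `Γ₁(M)` this is `Γ' = ±Γ₁(M) = X1.Level1.Gamma1pm M`), whereas the Hecke
representatives (`Per1/RepsGamma1`), the period lattice and the Hecke algebra `T2 M` live on
`Γ = Γ₁(M)`.  For `Γ ≤ Γ'` with `Γ' = ±Γ` (`IsPm Γ Γ'`):

* `resX : X Γ' →+ X Γ` (restriction of characters); it maps `Xpar Γ'` into `Xpar Γ`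
  (`resX_mem_Xpar`), is injective on `Xpar Γ'` (`resX_injOn_Xpar`) and every `ψ ∈ Xpar Γ` extends
  to `extX ψ ∈ Xpar Γ'` (`resX_extX`, `extX_mem_Xpar`, `nsmul_extX_eq_zero`);
* `restrictKS : KummerSystem p Γ' J → IsPm Γ Γ' → KummerSystem p Γ J` (`restrict_κ`);
* `isKummerMap_restrict` : the characterisation of the Kummer map restricts to subgroups.
-/
import Fermat.Agent.ES.J.TateChar11
import Fermat.Agent.DS.G.ES.HEQ.KummerHeckeG

set_option autoImplicit false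
set_option linter.dupNamespace false
set_option linter.unusedSectionVars false

open scoped MatrixGroups
open AlgebraicCurve

noncomputable section

namespace Fermat.Agent.DS.G.ES.HEQ.PmRestrict

open Fermat.Agent.ES.J.TateModule13 Fermat.Agent.ES.J.TateChar11
open Fermat.Agent.X0 Fermat.Agent.X0.SurjPoint Fermat.Agent.ES.KUM
open Fermat.Agent.DS.G.ES.HEQ.KummerHeckeG

/-- `Γ' = ±Γ`: `Γ ≤ Γ'` and every element of `Γ'` lies in `Γ` up to sign. -/
structure IsPm (Γ Γ' : Subgroup SL(2, ℤ)) : Prop where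
  le : Γ ≤ Γ'
  cases : ∀ g ∈ Γ', g ∈ Γ ∨ -g ∈ Γ

variable {Γ Γ' : Subgroup SL(2, ℤ)}

/-! ### Restriction of characters -/

/-- restriction of characters from `Γ'` to `Γ`. -/
def resX (h : Γ ≤ Γ') : X Γ' →+ X Γ where
  toFun χ := Additive.ofMul ((Additive.toMul χ).comp (Subgroup.inclusion h))
  map_zero' := rfl
  map_add' _ _ := rfl

theorem resX_apply (h : Γ ≤ Γ') (χ : X Γ') (γ : Γ) :
    (Additive.toMul (resX h χ)) γ = (Additive.toMul χ) (Subgroup.inclusion h γ) := rfl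

theorem resX_mem_Xpar (h : Γ ≤ Γ') {χ : X Γ'} (hχ : χ ∈ Xpar Γ') : resX h χ ∈ Xpar Γ := by
  intro γ hγ
  exact hχ (Subgroup.inclusion h γ) hγ

private theorem trace_neg (g : SL(2, ℤ)) :
    ((-g : SL(2, ℤ)) : Matrix (Fin 2) (Fin 2) ℤ).trace
      = -((g : SL(2, ℤ)) : Matrix (Fin 2) (Fin 2) ℤ).trace := by
  rw [Matrix.SpecialLinearGroup.coe_neg, Matrix.trace_neg]

private theorem abs_trace_neg_one :
    |(((-1 : SL(2, ℤ)) : SL(2, ℤ)) : Matrix (Fin 2) (Fin 2) ℤ).trace| ≤ 2 := by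
  rw [trace_neg, abs_neg]
  simp

/-- A character in `Xpar` takes the same value on two elements which agree up to sign. -/
theorem apply_eq_of_eq_or_neg {Δ : Subgroup SL(2, ℤ)} {ψ : X Δ} (hψ : ψ ∈ Xpar Δ) (a b : Δ)
    (h : (a : SL(2, ℤ)) = (b : SL(2, ℤ)) ∨ (a : SL(2, ℤ)) = -(b : SL(2, ℤ))) :
    (Additive.toMul ψ) a = (Additive.toMul ψ) b := by
  rcases h with h | h
  · rw [Subtype.ext h]
  · have hc : ((a * b⁻¹ : Δ) : SL(2, ℤ)) = -1 := by
      rw [Subgroup.coe_mul, Subgroup.coe_inv, h, neg_mul, mul_inv_cancel]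
    have h1 : (Additive.toMul ψ) (a * b⁻¹) = 1 := by
      apply hψ
      rw [hc]
      exact abs_trace_neg_one
    have h2 : a = (a * b⁻¹) * b := by rw [inv_mul_cancel_right]
    rw [h2, map_mul, h1, one_mul]

/-- restriction is injective on `Xpar Γ'` when `Γ' = ±Γ`. -/
theorem resX_injOn_Xpar (hpm : IsPm Γ Γ') {χ χ' : X Γ'} (hχ : χ ∈ Xpar Γ') (hχ' : χ' ∈ Xpar Γ')
    (h : resX hpm.le χ = resX hpm.le χ') : χ = χ' := by
  apply Additive.toMul.injective
  ext1 g
  have key : ∀ γ : Γ, (Additive.toMul χ) (Subgroup.inclusion hpm.le γ)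
      = (Additive.toMul χ') (Subgroup.inclusion hpm.le γ) := by
    intro γ
    have := congrArg (fun ψ : X Γ => (Additive.toMul ψ) γ) h
    exact this
  rcases hpm.cases g g.2 with hg | hg
  · exact key ⟨g, hg⟩
  · have e1 := apply_eq_of_eq_or_neg hχ g (Subgroup.inclusion hpm.le ⟨-g, hg⟩)
      (Or.inr (by simp))
    have e2 := apply_eq_of_eq_or_neg hχ' g (Subgroup.inclusion hpm.le ⟨-g, hg⟩)
      (Or.inr (by simp))
    rw [e1, e2]
    exact key ⟨-g, hg⟩

/-! ### Extension of parabolic characters -/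

open Classical in
/-- a set-theoretic section of `Γ → Γ' / ±1`. -/
def sec (hpm : IsPm Γ Γ') (g : Γ') : Γ :=
  if h : (g : SL(2, ℤ)) ∈ Γ then ⟨g, h⟩ else ⟨-g, (hpm.cases g g.2).resolve_left h⟩

theorem sec_spec (hpm : IsPm Γ Γ') (g : Γ') :
    ((sec hpm g : Γ) : SL(2, ℤ)) = (g : SL(2, ℤ)) ∨ ((sec hpm g : Γ) : SL(2, ℤ)) = -(g : SL(2, ℤ)) := by
  unfold sec
  split_ifs with h
  · exact Or.inl rfl
  · exact Or.inr rfl

theorem sec_of_mem (hpm : IsPm Γ Γ') (γ : Γ) : sec hpm (Subgroup.inclusion hpm.le γ) = γ := by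
  unfold sec
  rw [dif_pos (show ((Subgroup.inclusion hpm.le γ : Γ') : SL(2, ℤ)) ∈ Γ from γ.2)]
  rfl

private theorem eq_or_neg_trans {a b c : SL(2, ℤ)} (h1 : a = b ∨ a = -b) (h2 : b = c ∨ b = -c) :
    a = c ∨ a = -c := by
  rcases h1 with rfl | rfl <;> rcases h2 with rfl | rfl
  · exact Or.inl rfl
  · exact Or.inr rfl
  · exact Or.inr rfl
  · exact Or.inl (neg_neg _)

private theorem eq_or_neg_mul {a b c d : SL(2, ℤ)} (h1 : a = b ∨ a = -b) (h2 : c = d ∨ c = -d) :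
    a * c = b * d ∨ a * c = -(b * d) := by
  rcases h1 with rfl | rfl <;> rcases h2 with rfl | rfl
  · exact Or.inl rfl
  · exact Or.inr (by rw [mul_neg])
  · exact Or.inr (by rw [neg_mul])
  · exact Or.inl (by rw [neg_mul_neg])

private theorem eq_or_neg_symm {a b : SL(2, ℤ)} (h : a = b ∨ a = -b) : b = a ∨ b = -a := by
  rcases h with rfl | rfl
  · exact Or.inl rfl
  · exact Or.inr (neg_neg _).symm

/-- the extension of a parabolic character of `Γ` to `Γ' = ±Γ`. -/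
def extX (hpm : IsPm Γ Γ') (ψ : X Γ) (hψ : ψ ∈ Xpar Γ) : X Γ' :=
  Additive.ofMul
    { toFun := fun g => (Additive.toMul ψ) (sec hpm g)
      map_one' := by
        have h : sec hpm (1 : Γ') = 1 := sec_of_mem hpm 1
        rw [h, map_one]
      map_mul' := by
        intro g g'
        rw [← map_mul]
        apply apply_eq_of_eq_or_neg hψ
        have h1 := sec_spec hpm (g * g')
        have h2 := eq_or_neg_mul (sec_spec hpm g) (sec_spec hpm g')
        rw [Subgroup.coe_mul] at h1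
        rw [Subgroup.coe_mul]
        exact eq_or_neg_trans h1 (eq_or_neg_symm h2) }

theorem extX_apply (hpm : IsPm Γ Γ') (ψ : X Γ) (hψ : ψ ∈ Xpar Γ) (g : Γ') :
    (Additive.toMul (extX hpm ψ hψ)) g = (Additive.toMul ψ) (sec hpm g) := rfl

theorem resX_extX (hpm : IsPm Γ Γ') (ψ : X Γ) (hψ : ψ ∈ Xpar Γ) :
    resX hpm.le (extX hpm ψ hψ) = ψ := by
  apply Additive.toMul.injective
  ext1 γ
  rw [resX_apply, extX_apply, sec_of_mem]

theorem extX_mem_Xpar (hpm : IsPm Γ Γ') (ψ : X Γ) (hψ : ψ ∈ Xpar Γ) :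
    extX hpm ψ hψ ∈ Xpar Γ' := by
  intro g hg
  rw [extX_apply]
  apply hψ
  rcases sec_spec hpm g with h | h
  · rw [h]; exact hg
  · rw [h, trace_neg, abs_neg]; exact hg

theorem nsmul_extX_eq_zero (hpm : IsPm Γ Γ') (ψ : X Γ) (hψ : ψ ∈ Xpar Γ) (n : ℕ)
    (h : n • ψ = 0) : n • extX hpm ψ hψ = 0 := by
  apply Additive.toMul.injective
  ext1 g
  have h1 : (Additive.toMul (n • ψ)) (sec hpm g) = 1 := by rw [h]; rfl
  rw [toMul_nsmul, MonoidHom.pow_apply] at h1
  rw [toMul_nsmul, MonoidHom.pow_apply, extX_apply, h1]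
  rfl

/-! ### Restriction of Kummer systems -/

section Kummer

variable {p : ℕ} {J : Type*} [AddCommGroup J]

/-- **A Kummer system for `Γ' = ±Γ` restricts to a Kummer system for `Γ`.** -/
def restrictKS (KS : KummerSystem p Γ' J) (hpm : IsPm Γ Γ') : KummerSystem p Γ J where
  κ k := (resX hpm.le).comp (KS.κ k)
  inj k := by
    intro x y h
    exact KS.inj k (resX_injOn_Xpar hpm (KS.κ_mem_Xpar k x) (KS.κ_mem_Xpar k y) h)
  range_eq k χ := by
    constructor
    · rintro ⟨x, rfl⟩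
      obtain ⟨h1, h2⟩ := (KS.range_eq k (KS.κ k x)).mp ⟨x, rfl⟩
      refine ⟨resX_mem_Xpar hpm.le h1, ?_⟩
      show p ^ k • resX hpm.le (KS.κ k x) = 0
      rw [← map_nsmul, h2, map_zero]
    · rintro ⟨h1, h2⟩
      obtain ⟨x, hx⟩ := (KS.range_eq k (extX hpm χ h1)).mpr
        ⟨extX_mem_Xpar hpm χ h1, nsmul_extX_eq_zero hpm χ h1 _ h2⟩
      refine ⟨x, ?_⟩
      show resX hpm.le (KS.κ k x) = χ
      rw [hx, resX_extX]
  compat k x hx := by
    show resX hpm.le (KS.κ k ⟨p • (x : J), hx⟩) = p • resX hpm.le (KS.κ (k + 1) x)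
    rw [KS.compat k x hx, map_nsmul]

theorem restrict_κ (KS : KummerSystem p Γ' J) (hpm : IsPm Γ Γ') (k : ℕ)
    (x : ↥(tors J (p ^ k))) : (restrictKS KS hpm).κ k x = resX hpm.le (KS.κ k x) := rfl

end Kummer

/-! ### Restriction of the characterisation of the Kummer map -/

section Char

variable {K F : Type*} [Field K] [Field F] [Algebra K F]

theorem isKummerMap_restrict {an : F →+* MerH}
    {n : ℕ} {κ : ↥(Pic0.torsion K F n) → (Γ' →* ℂˣ)} (hκ : IsKummerMap Γ' an n κ)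
    (h : Γ ≤ Γ') :
    IsKummerMap Γ an n (fun x => (κ x).comp (Subgroup.inclusion h)) := by
  intro x D f hD hf hDf
  obtain ⟨h1, h2⟩ := hκ x D f hD hf hDf
  exact ⟨h1, fun g hg0 hgn γ => h2 g hg0 hgn (Subgroup.inclusion h γ)⟩

end Char

end Fermat.Agent.DS.G.ES.HEQ.PmRestrict
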