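/-
DS / GEO, chapter G-HECKE (HEQ part), brick HEQ-G5 (helper20): the Hecke parts of
`ES/J/TateChar11` (lines 495-533, 676-705) and of `ES/J/TateCompare11` (section `Hecke`) for
ABSTRACT Hecke representatives `H : HeckeReps Γ I` (helper78's `DS/Per1/HeckeReps`) instead of the
`Γ₀(N)` double coset `cocG` of `ES/HEQ/DoubleCoset27`.

* `dX H : X Γ →+ X Γ` : the transfer operator on the Kummer characters `X Γ = Additive (Γ →* ℂˣ)`
  (additive form of `HeckeReps.dMul`);
* `fullEquiv_dX` : `fullEquiv p Γ (map (dX H) x) = H.dHom ℤ_[p] (fullEquiv p Γ x)`;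
* `tateEquiv_map_reps` : if `f : J →+ J` corresponds to `dX H` under the Kummer maps of a
  `KummerSystem p Γ J`, then `T_p f` corresponds to `H.dHom ℤ_[p]` on `Hom_par(Γ, ℤ_p)`
  (`tateEquiv_map_dPar` : the same with `H.dPar`);
* `castPar_dPar`, `map_iota_reps` : the comparison `ι₀ : Hom_par(Γ, ℤ) → T_p J` of
  `TateCompare11.iota` intertwines `H.dPar ℤ ℤ` with `map f`.

For `Γ = Γ₁(M)` use `H = heckeRepsT …` (`T_p`) and `H = diamondReps …` (`⟨d⟩`) of
`DS/Per1/RepsGamma1`.
-/
import Mathlib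
import Fermat.Agent.ES.J.TateCompare11
import Fermat.Agent.DS.Per1.HeckeReps

set_option autoImplicit false
set_option linter.dupNamespace false

noncomputable section

namespace Fermat.Agent.DS.G.ES.HEQ.TateCharReps

open Fermat.Agent.ES.J.TateModule13 Fermat.Agent.ES.J.TateChar11 Fermat.Agent.ES.J.TateCompare11
open Fermat.Agent.ES.HEQ.ParLattice11
open Fermat.Agent.DS.Per1.HeckeReps
open ModularCurve.Period
open scoped MatrixGroups

variable {p : ℕ} [hp : Fact p.Prime] {Γ : Subgroup SL(2, ℤ)} {I : Type*} [Fintype I]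
  (H : HeckeReps Γ I)

/-! ### The transfer operator on characters, additively -/

theorem dMul_one : H.dMul (1 : Γ →* ℂˣ) = 1 := by
  ext γ
  simp [HeckeReps.dMul_apply]

theorem dMul_mul (χ ψ : Γ →* ℂˣ) : H.dMul (χ * ψ) = H.dMul χ * H.dMul ψ := by
  ext γ
  simp [HeckeReps.dMul_apply, Finset.prod_mul_distrib]

/-- The transfer operator of `H` on the characters of `Γ`, additively. -/
def dX : X Γ →+ X Γ where
  toFun χ := Additive.ofMul (H.dMul (Additive.toMul χ))
  map_zero' := by
    show Additive.ofMul (H.dMul (1 : Γ →* ℂˣ)) = 0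
    rw [dMul_one]
    rfl
  map_add' χ ψ := by
    show Additive.ofMul (H.dMul (Additive.toMul χ * Additive.toMul ψ))
      = Additive.ofMul (H.dMul (Additive.toMul χ)) + Additive.ofMul (H.dMul (Additive.toMul ψ))
    rw [dMul_mul]
    rfl

theorem dX_apply (χ : X Γ) (γ : Γ) :
    (Additive.toMul (dX H χ)) γ = ∏ i : I, (Additive.toMul χ) (H.coc γ i) := rfl

theorem toMul_dX (χ : X Γ) : Additive.toMul (dX H χ) = H.dMul (Additive.toMul χ) := rfl

/-- **(C3)** `fullEquiv` intertwines the transfer operator on characters with `dHom` on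
`Hom(Γ, ℤ_p)`. -/
theorem fullEquiv_dX (x : TateModule p (X Γ)) :
    fullEquiv p Γ (map (dX H) x) = H.dHom ℤ_[p] (fullEquiv p Γ x) := by
  refine AddMonoidHom.ext fun γ => ?_
  have h := fullEquiv_map_of_prod (p := p) (Finset.univ : Finset I)
    (fun i γ => H.coc γ i) (dX H) (fun χ γ => dX_apply H χ γ) x (Additive.toMul γ)
  exact h

/-! ### Hecke equivariance of `tateEquiv` -/

section Kummer

variable {J : Type*} [AddCommGroup J] (KS : KummerSystem p Γ J)

/-- **Hecke equivariance** of `tateEquiv`: if `f : J →+ J` corresponds to the transfer operator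
`dX H` under the Kummer maps then `T_p f` corresponds to `H.dHom` on `Hom_par(Γ, ℤ_p)`. -/
theorem tateEquiv_map_reps (f : J →+ J)
    (hf : ∀ (k : ℕ) (x : ↥(tors J (p ^ k))) (hfx : f (x : J) ∈ tors J (p ^ k)),
      KS.κ k ⟨f (x : J), hfx⟩ = dX H (KS.κ k x))
    (x : TateModule p J) :
    ((KS.tateEquiv (map f x) : ↥(parabolicHoms ℤ_[p] Γ ℤ_[p])) : Additive Γ →+ ℤ_[p])
      = H.dHom ℤ_[p] (KS.tateEquiv x : Additive Γ →+ ℤ_[p]) := by
  rw [KummerSystem.tateEquiv_apply, KummerSystem.tateEquiv_apply, coe_parEquiv, coe_parEquiv,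
    ← fullEquiv_dX]
  congr 1
  apply TateModule.ext'
  intro k
  show KS.κ k (KummerSystem.comp (map f x) k) = dX H (KS.κ k (KummerSystem.comp x k))
  rw [← hf k (KummerSystem.comp x k)
    (by
      show f (proj k x) ∈ _
      rw [← proj_map]
      exact KummerSystem.proj_mem_tors _ k)]
  rfl

/-- The same with the operator `dPar` on parabolic homomorphisms. -/
theorem tateEquiv_map_dPar (f : J →+ J)
    (hf : ∀ (k : ℕ) (x : ↥(tors J (p ^ k))) (hfx : f (x : J) ∈ tors J (p ^ k)),
      KS.κ k ⟨f (x : J), hfx⟩ = dX H (KS.κ k x))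
    (x : TateModule p J) :
    KS.tateEquiv (map f x) = H.dPar ℤ_[p] ℤ_[p] (KS.tateEquiv x) := by
  apply Subtype.ext
  rw [tateEquiv_map_reps H KS f hf x, HeckeReps.coe_dPar]

/-- `castPar` intertwines the transfer operators. -/
theorem castPar_dPar (R : Type*) [Ring R] (φ : ↥(parabolicHoms ℤ Γ ℤ)) :
    castPar Γ R (H.dPar ℤ ℤ φ) = H.dPar R R (castPar Γ R φ) := by
  apply Subtype.ext
  rw [HeckeReps.coe_dPar]
  exact (H.dHom_comp (Int.castAddHom R) (φ : Additive Γ →+ ℤ)).symm

/-- **(K2), second half, for abstract Hecke representatives**: the comparison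
`ι₀ : Hom_par(Γ, ℤ) → T_p J` intertwines the transfer operator `H.dPar ℤ ℤ` with the operator
induced on `T_p J` by an endomorphism `f` of `J` corresponding to `dX H` under the Kummer maps. -/
theorem map_iota_reps (f : J →+ J)
    (hf : ∀ (k : ℕ) (x : ↥(tors J (p ^ k))) (hfx : f (x : J) ∈ tors J (p ^ k)),
      KS.κ k ⟨f (x : J), hfx⟩ = dX H (KS.κ k x))
    (φ : ↥(parabolicHoms ℤ Γ ℤ)) :
    map f (iota KS φ) = iota KS (H.dPar ℤ ℤ φ) := by
  apply KS.tateEquiv.injective
  rw [tateEquiv_map_dPar H KS f hf, tateEquiv_iota, tateEquiv_iota, castPar_dPar]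

end Kummer

end Fermat.Agent.DS.G.ES.HEQ.TateCharReps
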