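/-
DS / GEO, chapter G-HECKE (HEQ part), brick HEQ-G6 (helper20): **the adapter** — generic twin of
`ES/HEQ/KummerHeckeQ19` §Hecke: the Kummer map `kumQAdd = kummerC ∘ torsionEquivC` of helper11's
`DS/G/HECKE/KumQG` (J1 ∘ J2, for an analytic model `A : CModel (F_ℂ)`), restricted to a subgroup
`Γ ≤ A.Gam` (`Γ = Γ₁(M)` inside `A.Gam = ±Γ₁(M)`), intertwines

* a correspondence `α_* β^*` on `Pic⁰(F_ℚ̄)[n]` with the transfer operator `dX H` of abstract Hecke
  representatives `H : HeckeReps Γ I`, given the analytic data `SigmaFamily.AnData α β H`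
  (`kumQAdd_corr`);
* the action of an automorphism `δ` of `F_ℚ̄ / ℚ̄` realised by `h ↦ h ∘ σ` (`σ` normalising `Γ`)
  with `dX (conjReps Γ σ hσ)` (`kumQAdd_smul`).

Both are in the literal shape of the hypothesis `hf` of `TateCharReps.tateEquiv_map_reps` /
`map_iota_reps` and of `K2Reps.HeckeCompatT/HeckeCompatD` for a Kummer system whose `κ k` is
`resX hΓ ∘ kumQAdd A hQ hC (ℓ ^ k)` (`PmRestrict.restrictKS`).
-/
import Fermat.Agent.DS.G.HECKE.KumQG
import Fermat.Agent.DS.G.ES.HEQ.SigmaFamily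
import Fermat.Agent.DS.G.ES.HEQ.PmRestrict
import Fermat.Agent.DS.G.ES.HEQ.TateCharReps

set_option autoImplicit false
set_option linter.dupNamespace false
set_option linter.style.haveILetI false
set_option linter.unusedSectionVars false
set_option linter.style.longLine false

open UpperHalfPlane hiding I
open scoped Manifold MatrixGroups
open AlgebraicCurve

noncomputable section

namespace Fermat.Agent.DS.G.ES.HEQ.CompatG

open Fermat.Agent.X0 Fermat.Agent.X0.SurjPoint ModularCurve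
open Fermat.Agent.DS.G.HECKE.DescG Fermat.Agent.DS.G.HECKE.KumQG
open Fermat.Agent.DS.G.ES.KUM.Iface Fermat.Agent.DS.G.ES.KUM.CReal5
open Fermat.Agent.ES.KUM (slMer)
open Fermat.Agent.ES.J.TateChar11
open Fermat.Agent.DS.Per1.HeckeReps Fermat.Agent.DS.Per1.RepsGamma1
open Fermat.Agent.DS.G.ES.HEQ.KummerHeckeG Fermat.Agent.DS.G.ES.HEQ.SigmaFamily
open Fermat.Agent.DS.G.ES.HEQ.PmRestrict Fermat.Agent.DS.G.ES.HEQ.TateCharReps

attribute [local instance] instAlgebraQbarComplex instTowerQbarComplex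

variable {F₀ : IntermediateField ℚ (LaurentSeries ℚ)} (A : CModel (FCx F₀))
variable {xQ : FQ F₀} (hQ : FF.IsGen Qb xQ) (hC : FF.IsGen ℂ (jC A))
variable (n : ℕ) [NeZero n] [Finite (Pic0.torsion ℂ (FCx F₀) n)]

/-- The Kummer map of `KumQG` satisfies the characterisation `KummerHeckeG.IsKummerMap`, for any
realisation `an` over `ℚ̄` which agrees with `realMer A ∘ bc`. -/
theorem isKummerMap_kumQ (an : FQ F₀ →+* MerH)
    (hbr : ∀ f : FQ F₀, realMer A (bcQC F₀ f) = an f) :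
    IsKummerMap A.Gam an n (kumQ A hQ hC n) := by
  intro x D f hD hf hDf
  exact isKummerMap_kumQ_of_bridge A hQ hC n an hbr x D f hD hf hDf

variable {Γ : Subgroup SL(2, ℤ)} (hΓ : Γ ≤ A.Gam)

/-- The Kummer map with values in the characters of a subgroup `Γ ≤ A.Gam`. -/
def kumΓ (x : ↥(Pic0.torsion Qb (FQ F₀) n)) : Γ →* ℂˣ :=
  (kumQ A hQ hC n x).comp (Subgroup.inclusion hΓ)

theorem isKummerMap_kumΓ (an : FQ F₀ →+* MerH)
    (hbr : ∀ f : FQ F₀, realMer A (bcQC F₀ f) = an f) :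
    IsKummerMap Γ an n (kumΓ A hQ hC n hΓ) :=
  isKummerMap_restrict (isKummerMap_kumQ A hQ hC n an hbr) hΓ

theorem toMul_resX_kumQAdd (x : ↥(Pic0.torsion Qb (FQ F₀) n)) :
    Additive.toMul (resX hΓ (kumQAdd A hQ hC n x)) = kumΓ A hQ hC n hΓ x := rfl

/-- **HEQ, final form, correspondences**: the (restricted) Kummer map intertwines `α_* β^*` with
the transfer operator of the Hecke representatives. -/
theorem kumQAdd_corr {F₀' : IntermediateField ℚ (LaurentSeries ℚ)}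
    [HasPrincipalDivisors Qb (FQ F₀')] {α β : FQ F₀ →ₐ[Qb] FQ F₀'}
    {I : Type*} [Fintype I] {H : HeckeReps Γ I} (D : AnData α β H)
    (hbr : ∀ f : FQ F₀, realMer A (bcQC F₀ f) = D.an f)
    (hα : α.toRingHom.IsIntegral) (hβ : β.toRingHom.IsIntegral)
    (hFI : FundamentalIdentityAlong Qb β hβ) (hfin : FiniteAlong Qb α)
    (hN : NormFormulaAlong Qb α hfin)
    (x : ↥(Pic0.torsion Qb (FQ F₀) n))
    (hx : Pic0.correspondence β α hβ hα hFI hfin hN (x : Pic0 Qb (FQ F₀))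
      ∈ Pic0.torsion Qb (FQ F₀) n) :
    resX hΓ (kumQAdd A hQ hC n
        ⟨Pic0.correspondence β α hβ hα hFI hfin hN (x : Pic0 Qb (FQ F₀)), hx⟩)
      = dX H (resX hΓ (kumQAdd A hQ hC n x)) := by
  apply Additive.toMul.injective
  rw [toMul_resX_kumQAdd, toMul_dX, toMul_resX_kumQAdd]
  exact D.kummer_corr hα hβ hFI hfin hN (isKummerMap_kumΓ A hQ hC n hΓ D.an hbr) x hx

/-- **HEQ, final form, automorphisms** (diamond operators). -/
theorem kumQAdd_smul (δ : FQ F₀ ≃ₐ[Qb] FQ F₀) (σ : SL(2, ℤ)) (hσ : ∀ γ ∈ Γ, σ * γ * σ⁻¹ ∈ Γ)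
    (an : FQ F₀ →+* MerH) (hbr : ∀ f : FQ F₀, realMer A (bcQC F₀ f) = an f)
    (han : ∀ f : FQ F₀, an (δ f) = slMer σ (an f))
    (x : ↥(Pic0.torsion Qb (FQ F₀) n)) :
    resX hΓ (kumQAdd A hQ hC n (SemilinearAut.ofAlgAut δ • x))
      = dX (conjReps Γ σ hσ) (resX hΓ (kumQAdd A hQ hC n x)) := by
  apply Additive.toMul.injective
  rw [toMul_resX_kumQAdd, toMul_dX, toMul_resX_kumQAdd]
  exact kummer_smul δ σ hσ han (isKummerMap_kumΓ A hQ hC n hΓ an hbr) x

end Fermat.Agent.DS.G.ES.HEQ.CompatG
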