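/-
DS / GEO, chapter G-HECKE (HEQ part), brick HEQ-K2 (helper20): **the twin of `ES/J/K2Final11.k2`
for `Γ₁(M)`**, in the shape of the fields `ι₀`, `isBaseChange`, `bT_ι₀`, `bD_ι₀` of
`DS/G/Top/Inputs.GeoInputs` (and of the hypotheses `hι₀`, `hι₀Tp`, `hι₀Dia` of
`DS/Geo/TateOfTorsion.tateDataOfTorsion`).

Input: an abelian group `J` (the Jacobian `J_L = Pic⁰(FFL (L1 M))`), a Kummer system
`KS : KummerSystem ℓ (Γ₁(M)) J` (from G-KUM through `PmRestrict.restrictKS`), additive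
endomorphisms `Tp p`, `Dia d` of `J` (geometric Hecke correspondences and diamond automorphisms,
G-HECKE) which correspond under the Kummer maps to the transfer operators of helper78's
representatives (`HeckeCompatT`, `HeckeCompatD`: output of `KummerHeckeG.kummer_corr` /
`SigmaFamily.kummer_smul`).

Output (`k2_gamma1`): `ι₀ := TateCompare11.iota KS : Hom_par(Γ₁(M), ℤ) →ₗ[ℤ] T_ℓ J` is a base
change `ℤ → ℤ_[ℓ]`, and
  `map (Tp p) (ι₀ x) = ι₀ ((heckeRepsT M hpM σ hσ hσp).dPar ℤ ℤ x)`,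
  `map (Dia d) (ι₀ x) = ι₀ ((diamondReps M σ hσ).dPar ℤ ℤ x)`   (`σ 1 1 ≡ d`).
-/
import Fermat.Agent.DS.G.ES.HEQ.TateCharReps
import Fermat.Agent.DS.Per1.RepsGamma1

set_option autoImplicit false
set_option linter.dupNamespace false

noncomputable section

namespace Fermat.Agent.DS.G.ES.HEQ.K2Reps

open Fermat.Agent.ES.J.TateModule13 Fermat.Agent.ES.J.TateChar11 Fermat.Agent.ES.J.TateCompare11
open Fermat.Agent.DS.Per1.HeckeReps Fermat.Agent.DS.Per1.RepsGamma1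
open Fermat.Agent.DS.G.ES.HEQ.TateCharReps
open ModularCurve.Period CongruenceSubgroup
open scoped MatrixGroups

variable {ℓ : ℕ} [hℓ : Fact ℓ.Prime] {M : ℕ} {J : Type*} [AddCommGroup J]

/-- **Hecke compatibility for `T_p`**: the Kummer maps intertwine the endomorphisms `Tp p` of `J`
with the transfer operators of the representatives `heckeRepsT` (any admissible `σ`). -/
def HeckeCompatT (KS : KummerSystem ℓ (Gamma1 M) J)
    (Tp : ∀ p : ℕ, p.Prime → ¬ p ∣ M → (J →+ J)) : Prop :=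
  ∀ (p : ℕ) [Fact p.Prime] (hp : p.Prime) (hpM : ¬ p ∣ M) (σ : SL(2, ℤ)) (hσ : σ ∈ Gamma0 M)
    (hσp : ((σ 1 1 : ℤ) : ZMod M) = (p : ZMod M)) (k : ℕ) (x : ↥(tors J (ℓ ^ k)))
    (hfx : Tp p hp hpM (x : J) ∈ tors J (ℓ ^ k)),
    KS.κ k ⟨Tp p hp hpM (x : J), hfx⟩ = dX (heckeRepsT M hpM σ hσ hσp) (KS.κ k x)

/-- **Hecke compatibility for `⟨d⟩`**. -/
def HeckeCompatD (KS : KummerSystem ℓ (Gamma1 M) J) (Dia : (ZMod M)ˣ → (J →+ J)) : Prop :=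
  ∀ (d : (ZMod M)ˣ) (σ : SL(2, ℤ)) (hσ : σ ∈ Gamma0 M),
    ((σ 1 1 : ℤ) : ZMod M) = (d : ZMod M) → ∀ (k : ℕ) (x : ↥(tors J (ℓ ^ k)))
    (hfx : Dia d (x : J) ∈ tors J (ℓ ^ k)),
    KS.κ k ⟨Dia d (x : J), hfx⟩ = dX (diamondReps M σ hσ) (KS.κ k x)

/-- **(K2) for `Γ₁(M)`**: the comparison `ι₀ : Hom_par(Γ₁(M), ℤ) → T_ℓ J` is a base change
`ℤ → ℤ_[ℓ]` and intertwines the transfer operators of `T_p`, `⟨d⟩` on the lattice with the
operators induced by `Tp p`, `Dia d` on the Tate module. -/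
theorem k2_gamma1 [NeZero M] (KS : KummerSystem ℓ (Gamma1 M) J)
    (Tp : ∀ p : ℕ, p.Prime → ¬ p ∣ M → (J →+ J)) (Dia : (ZMod M)ˣ → (J →+ J))
    (hT : HeckeCompatT KS Tp) (hD : HeckeCompatD KS Dia) :
    IsBaseChange ℤ_[ℓ] (iota KS) ∧
    (∀ (p : ℕ) [Fact p.Prime] (hp : p.Prime) (hpM : ¬ p ∣ M) (σ : SL(2, ℤ)) (hσ : σ ∈ Gamma0 M)
      (hσp : ((σ 1 1 : ℤ) : ZMod M) = (p : ZMod M)) (x : ↥(parabolicHoms ℤ (Gamma1 M) ℤ)),
      (map (Tp p hp hpM) : Module.End ℤ_[ℓ] (TateModule ℓ J)) (iota KS x)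
        = iota KS ((heckeRepsT M hpM σ hσ hσp).dPar ℤ ℤ x)) ∧
    (∀ (d : (ZMod M)ˣ) (σ : SL(2, ℤ)) (hσ : σ ∈ Gamma0 M),
      ((σ 1 1 : ℤ) : ZMod M) = (d : ZMod M) → ∀ x : ↥(parabolicHoms ℤ (Gamma1 M) ℤ),
      (map (Dia d) : Module.End ℤ_[ℓ] (TateModule ℓ J)) (iota KS x)
        = iota KS ((diamondReps M σ hσ).dPar ℤ ℤ x)) := by
  refine ⟨isBaseChange_iota KS (Fermat.Agent.S22.fg_of_finiteIndex (Gamma1 M)), ?_, ?_⟩
  · intro p _ hp hpM σ hσ hσp x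
    exact map_iota_reps (heckeRepsT M hpM σ hσ hσp) KS (Tp p hp hpM)
      (fun k y hfy => hT p hp hpM σ hσ hσp k y hfy) x
  · intro d σ hσ hd x
    exact map_iota_reps (diamondReps M σ hσ) KS (Dia d)
      (fun k y hfy => hD d σ hσ hd k y hfy) x

end Fermat.Agent.DS.G.ES.HEQ.K2Reps
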