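/-
DS / GEO, chapter G-HECKE (HEQ part), brick HEQ-G4c (helper20): the instance of
`PmRestrict.IsPm` for the concrete level `Γ₁(M)` of `DS/X1/Level1`:
`(L1 M).Gam = Gamma1pm M = ±Γ₁(M)`.

* `isPm_Gamma1 M : IsPm (Gamma1 M) (Gamma1pm M)`;
* `kummerSystemGamma1` : a Kummer system for `(L1 M).Gam` (the output of G-KUM at the level
  `L1 M`) restricts to a Kummer system for `Γ₁(M)` (the group on which the Hecke representatives,
  the period lattice and `T2 M` live).
-/
import Fermat.Agent.DS.G.ES.HEQ.PmRestrict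
import Fermat.Agent.DS.X1.Level1

set_option autoImplicit false
set_option linter.dupNamespace false

open scoped MatrixGroups
open CongruenceSubgroup

noncomputable section

namespace Fermat.Agent.DS.G.ES.HEQ.PmGamma1

open Fermat.Agent.ES.J.TateChar11 Fermat.Agent.DS.X1.Level1
open Fermat.Agent.DS.G.ES.HEQ.PmRestrict

/-- `Gamma1pm M = ±Γ₁(M)`. -/
theorem isPm_Gamma1 (M : ℕ) : IsPm (Gamma1 M) (Gamma1pm M) :=
  ⟨Gamma1_le_Gamma1pm M, fun _ hg => (mem_Gamma1pm M).mp hg⟩

/-- A Kummer system for `±Γ₁(M)` restricts to a Kummer system for `Γ₁(M)`. -/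
def kummerSystemGamma1 {p : ℕ} {M : ℕ} {J : Type*} [AddCommGroup J]
    (KS : KummerSystem p (Gamma1pm M) J) : KummerSystem p (Gamma1 M) J :=
  restrictKS KS (isPm_Gamma1 M)

theorem kummerSystemGamma1_κ {p : ℕ} {M : ℕ} {J : Type*} [AddCommGroup J]
    (KS : KummerSystem p (Gamma1pm M) J) (k : ℕ) (x : ↥(tors J (p ^ k))) :
    (kummerSystemGamma1 KS).κ k x = resX (Gamma1_le_Gamma1pm M) (KS.κ k x) := rfl

/-- The same for the group of the level `L1 M` (definitionally `Gamma1pm M`). -/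
def kummerSystemOfL1 {p : ℕ} {M : ℕ} [NeZero M] {J : Type*} [AddCommGroup J]
    (KS : KummerSystem p (L1 M).Gam J) : KummerSystem p (Gamma1 M) J :=
  kummerSystemGamma1 (M := M) KS

end Fermat.Agent.DS.G.ES.HEQ.PmGamma1
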