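/-
DS / GEO, chapter G-HECKE (HEQ part), brick HEQ-G7 (helper20): **the Kummer system over `ℚ̄`.**

Generic: for a rational function field `F₀ ⊆ ℚ((q))`, an analytic model `A : CModel (F_ℂ)` of
`F_ℂ = ℂ · F₀` (chapter G-KUM) and a generator `hQ : IsGen ℚ̄ xQ` of `F_ℚ̄ = ℚ̄ · F₀`:

* `kummerSystemQ A hQ ℓ : TateChar11.KummerSystem ℓ A.Gam (Pic0 ℚ̄ F_ℚ̄)` with
  `κ k = KumQG.kumQAdd A hQ (hgen A) (ℓ ^ k)` (`= kummerC ∘ torsionEquivC`), unconditional: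
  injectivity, the image (parabolic characters of exponent `ℓ ^ k`) and the compatibility in `k`
  are transported from `KUM.Final.kummerSystem A ℓ` along `DescG.torsionEquivC`;
* `finite_torsionQ`, `finite_setOf_smul_eq_zero` : finiteness of `Pic⁰(F_ℚ̄)[n]`.

At the level `L1 M` (`A = KumGamma1.modelC M`, `A.Gam = ±Γ₁(M)`, `xQ = j`):

* `ksQpm M ℓ : KummerSystem ℓ (Gamma1pm M) (J1 M)`, `J1 M := Pic0 ℚ̄ (ℚ̄ · F₀(L1 M))`;
* `ksQ1 M ℓ : KummerSystem ℓ (Gamma1 M) (J1 M)` (restriction `±Γ₁(M) → Γ₁(M)`, `PmGamma1`), with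
  `ksQ1_κ : (ksQ1 M ℓ).κ k x = resX _ (kumQAdd (modelC M) _ _ (ℓ ^ k) x)` — the literal shape of
  `CompatG.kumQAdd_corr / kumQAdd_smul`;
* `iota1 M ℓ : Hom_par(Γ₁(M), ℤ) →ₗ[ℤ] T_ℓ (J1 M)` and `isBaseChange_iota1`;
* `map_iota1_of_compat` : an endomorphism `f` of `J1 M` whose action on `ℓ ^ k`-torsion corresponds
  under the Kummer maps to the transfer operator `dX H` of Hecke representatives `H` of `Γ₁(M)`
  satisfies `map f (ι₀ x) = ι₀ (H.dPar ℤ ℤ x)` (the fields `bT_ι₀`, `bD_ι₀` of `GeoInputsGen`).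
-/
import Fermat.Agent.DS.G.HECKE.KumQG
import Fermat.Agent.DS.G.ES.KUM.Final
import Fermat.Agent.DS.G.ES.HEQ.PmGamma1
import Fermat.Agent.DS.G.ES.HEQ.CompatG
import Fermat.Agent.DS.G.ES.HEQ.K2Reps
import Fermat.Agent.DS.X1.KumGamma1
import Fermat.Agent.DS.G.X0.OfAnalyticGens
import Fermat.Agent.DS.X1.Inst13
import Fermat.Agent.ES.J.TateCompare11

set_option autoImplicit false
set_option linter.dupNamespace false
set_option linter.style.haveILetI false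
set_option linter.unusedSectionVars false
set_option linter.style.longLine false

open UpperHalfPlane hiding I
open scoped Manifold MatrixGroups
open AlgebraicCurve

noncomputable section

namespace Fermat.Agent.DS.G.ES.HEQ.KumSysQ

open Fermat.Agent.X0 Fermat.Agent.X0.SurjPoint ModularCurve
open Fermat.Agent.DS.G.HECKE.DescG Fermat.Agent.DS.G.HECKE.KumQG
open Fermat.Agent.DS.G.ES.KUM.Iface Fermat.Agent.DS.G.ES.KUM.CReal5
open Fermat.Agent.DS.G.ES.KUM.KumInst18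
open Fermat.Agent.ES.J.TateChar11
open Fermat.Agent.DS.G.ES.HEQ.PmRestrict Fermat.Agent.DS.G.ES.HEQ.PmGamma1

attribute [local instance] instAlgebraQbarComplex instTowerQbarComplex

variable {F₀ : IntermediateField ℚ (LaurentSeries ℚ)} (A : CModel (FCx F₀))
variable {xQ : FQ F₀} (hQ : FF.IsGen Qb xQ)

theorem neZero_pow (ℓ : ℕ) [hℓ : Fact ℓ.Prime] (k : ℕ) : NeZero (ℓ ^ k) :=
  ⟨pow_ne_zero k hℓ.out.ne_zero⟩

include A in
theorem finiteC (n : ℕ) [NeZero n] : Finite ↥(Pic0.torsion ℂ (FCx F₀) n) :=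
  KUM.Final.finite_torsion A n

include A hQ in
/-- `Pic⁰(F_ℚ̄)[n]` is finite. -/
theorem finite_torsionQ (n : ℕ) [NeZero n] : Finite ↥(Pic0.torsion Qb (FQ F₀) n) :=
  haveI := finiteC A n
  finite_torsion_bar hQ (KUM.Final.hgen A) n

include A hQ in
theorem finite_setOf_smul_eq_zero (n : ℕ) [NeZero n] : {y : Pic0 Qb (FQ F₀) | n • y = 0}.Finite :=
  haveI := finiteC A n
  finite_setOf_nsmul_eq_zero hQ (KUM.Final.hgen A) n

/-- the level-`n` Kummer map over `ℚ̄` (with the finiteness instance filled in). -/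
def kumQn (n : ℕ) [NeZero n] : ↥(Pic0.torsion Qb (FQ F₀) n) →+ Additive (↥A.Gam →* ℂˣ) :=
  haveI := finiteC A n
  kumQAdd A hQ (KUM.Final.hgen A) n

theorem kumQn_eq (n : ℕ) [NeZero n] [Finite ↥(Pic0.torsion ℂ (FCx F₀) n)] :
    kumQn A hQ n = kumQAdd A hQ (KUM.Final.hgen A) n := rfl

theorem kumQn_apply (n : ℕ) [NeZero n] [Finite ↥(Pic0.torsion ℂ (FCx F₀) n)]
    (x : ↥(Pic0.torsion Qb (FQ F₀) n)) :
    kumQn A hQ n x = KUM.Final.kummer A n (torsionEquivC hQ (KUM.Final.hgen A) n x) := rfl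

theorem kumQn_injective (n : ℕ) [NeZero n] : Function.Injective (kumQn A hQ n) :=
  haveI := finiteC A n
  kumQAdd_injective A hQ (KUM.Final.hgen A) n (KUM.Final.kummer_injective A n)

theorem range_kumQn (n : ℕ) [NeZero n] :
    Set.range (kumQn A hQ n) = Set.range (KUM.Final.kummer A n) := by
  haveI := finiteC A n
  ext χ
  constructor
  · rintro ⟨x, rfl⟩
    exact ⟨torsionEquivC hQ (KUM.Final.hgen A) n x, rfl⟩
  · rintro ⟨y, rfl⟩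
    refine ⟨(torsionEquivC hQ (KUM.Final.hgen A) n).symm y, ?_⟩
    rw [kumQn_apply, AddEquiv.apply_symm_apply]

attribute [local instance] neZero_pow KUM.Final.neZero_of_prime

/-- level compatibility of the Kummer maps over `ℚ̄`. -/
theorem kumQn_pow_succ (ℓ : ℕ) [hℓ : Fact ℓ.Prime] (k : ℕ)
    (x : ↥(Pic0.torsion Qb (FQ F₀) (ℓ ^ (k + 1))))
    (hx : ℓ • (x : Pic0 Qb (FQ F₀)) ∈ Pic0.torsion Qb (FQ F₀) (ℓ ^ k)) :
    kumQn A hQ (ℓ ^ k) ⟨ℓ • (x : Pic0 Qb (FQ F₀)), hx⟩ = ℓ • kumQn A hQ (ℓ ^ (k + 1)) x := by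
  haveI := finiteC A (ℓ ^ k)
  haveI := finiteC A (ℓ ^ (k + 1))
  rw [kumQn_apply, kumQn_apply]
  refine KUM.Final.kummer_pow_succ A ℓ k _ _ ?_
  rw [coe_torsionEquivC_apply, coe_torsionEquivC_apply]
  exact map_nsmul (extPic0C hQ (KUM.Final.hgen A)) ℓ (x : Pic0 Qb (FQ F₀))

/-- **The Kummer system of `Pic⁰(F_ℚ̄)`**, unconditional. -/
def kummerSystemQ (ℓ : ℕ) [hℓ : Fact ℓ.Prime] : KummerSystem ℓ A.Gam (Pic0 Qb (FQ F₀)) where
  κ k := kumQn A hQ (ℓ ^ k)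
  inj k := kumQn_injective A hQ (ℓ ^ k)
  range_eq k χ := by
    have h := (KUM.Final.kummerSystem A ℓ).range_eq k χ
    rw [KUM.Final.kummerSystem_κ] at h
    refine Iff.trans ?_ h
    show χ ∈ Set.range (kumQn A hQ (ℓ ^ k)) ↔ _
    rw [range_kumQn]
    exact Iff.rfl
  compat k x hx := kumQn_pow_succ A hQ ℓ k x hx

theorem kummerSystemQ_κ (ℓ : ℕ) [hℓ : Fact ℓ.Prime] (k : ℕ)
    [Finite ↥(Pic0.torsion ℂ (FCx F₀) (ℓ ^ k))] (x : ↥(Pic0.torsion Qb (FQ F₀) (ℓ ^ k))) :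
    (kummerSystemQ A hQ ℓ).κ k x = kumQAdd A hQ (KUM.Final.hgen A) (ℓ ^ k) x := rfl

/-! ### the level `L1 M` -/

section Level1

open Fermat.Agent.DS.G.Level Fermat.Agent.DS.X1.Level1 Fermat.Agent.DS.X1.KumGamma1
open Fermat.Agent.DS.Per1.HeckeReps Fermat.Agent.DS.G.ES.HEQ.TateCharReps
open Fermat.Agent.ES.J.TateCompare11 Fermat.Agent.ES.J.TateModule13
open ModularCurve.Period CongruenceSubgroup

variable (M : ℕ) [NeZero M]

/-- `J₁(M)(ℚ̄) = Pic⁰(ℚ̄ · F₀(L1 M))`. -/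
abbrev J1 : Type := Pic0 Qb (FQ (L1 M).F₀)

/-- `j` generates `ℚ̄ · F₀(L1 M)` over `ℚ̄`. -/
theorem isGen_jQ1 : FF.IsGen Qb (jFL (L1 M)) :=
  Fermat.Agent.DS.G.X0.OfAnalyticGens.isGen_jF (L1 M) (Fermat.Agent.DS.X1.Inst13.analyticGensK M)

/-- `J₁(M)(ℚ̄)[n]` is finite. -/
theorem finite_torsion1Q (n : ℕ) [NeZero n] : Finite ↥(Pic0.torsion Qb (FQ (L1 M).F₀) n) :=
  finite_torsionQ (modelC M) (isGen_jQ1 M) n

theorem finite_setOf_smul_eq_zero1 (n : ℕ) [NeZero n] : {y : J1 M | n • y = 0}.Finite :=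
  finite_setOf_smul_eq_zero (modelC M) (isGen_jQ1 M) n

variable (ℓ : ℕ) [hℓ : Fact ℓ.Prime]

/-- The Kummer system of `J₁(M)(ℚ̄)` with values in the characters of `±Γ₁(M)`. -/
def ksQpm : KummerSystem ℓ (Gamma1pm M) (J1 M) :=
  kummerSystemQ (modelC M) (isGen_jQ1 M) ℓ

/-- **The Kummer system of `J₁(M)(ℚ̄)` with values in the characters of `Γ₁(M)`.** -/
def ksQ1 : KummerSystem ℓ (Gamma1 M) (J1 M) :=
  kummerSystemGamma1 (ksQpm M ℓ)

theorem ksQ1_κ (k : ℕ) [Finite ↥(Pic0.torsion ℂ (FCx (L1 M).F₀) (ℓ ^ k))]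
    (x : ↥(Pic0.torsion Qb (FQ (L1 M).F₀) (ℓ ^ k))) :
    (ksQ1 M ℓ).κ k x = resX (Gamma1_le_Gamma1pm M)
      (kumQAdd (modelC M) (isGen_jQ1 M) (KUM.Final.hgen (modelC M)) (ℓ ^ k) x) := rfl

/-- **The comparison map** `ι₀ : Hom_par(Γ₁(M), ℤ) →ₗ[ℤ] T_ℓ J₁(M)`. -/
def iota1 : ↥(parabolicHoms ℤ (Gamma1 M) ℤ) →ₗ[ℤ] TateModule ℓ (J1 M) := iota (ksQ1 M ℓ)

/-- `ι₀` is a base change `ℤ → ℤ_[ℓ]`. -/
theorem isBaseChange_iota1 : IsBaseChange ℤ_[ℓ] (iota1 M ℓ) :=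
  isBaseChange_iota (ksQ1 M ℓ) (Fermat.Agent.S22.fg_of_finiteIndex (Gamma1 M))

/-- **Intertwining**: an endomorphism `f` of `J₁(M)` which corresponds on `ℓ ^ k`-torsion, under the
Kummer maps, to the transfer operator of Hecke representatives `H` of `Γ₁(M)`, acts on the image of
the lattice as `H.dPar ℤ ℤ`. -/
theorem map_iota1_of_compat {I : Type*} [Fintype I] (H : HeckeReps (Gamma1 M) I) (f : J1 M →+ J1 M)
    (hf : ∀ (k : ℕ) (x : ↥(tors (J1 M) (ℓ ^ k))) (hfx : f (x : J1 M) ∈ tors (J1 M) (ℓ ^ k)),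
      (ksQ1 M ℓ).κ k ⟨f (x : J1 M), hfx⟩ = dX H ((ksQ1 M ℓ).κ k x))
    (x : ↥(parabolicHoms ℤ (Gamma1 M) ℤ)) :
    (map f : Module.End ℤ_[ℓ] (TateModule ℓ (J1 M))) (iota1 M ℓ x) = iota1 M ℓ (H.dPar ℤ ℤ x) :=
  map_iota_reps H (ksQ1 M ℓ) f hf x

end Level1

end Fermat.Agent.DS.G.ES.HEQ.KumSysQ
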