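/-
DS / GEO, chapter G-HECKE (HEQ part), brick HEQ-G1 (helper20): generic twin of
`ES/HEQ/BetaMer19` for ABSTRACT Hecke representatives `H : HeckeReps Γ I` (helper78's
`DS/Per1/HeckeReps`): the ring endomorphisms `h ↦ h ∘ α_i` of the field `MerH` of meromorphic
functions on `ℍ` and the double coset relation

  `(h ∘ α_i) ∘ γ = (h ∘ coc γ i) ∘ α_{perm γ i}`     (`slMer_aMer`),

which is the field `R_B` of `ES/HEQ/KummerHeckeAbs19.Setup`.

For the concrete representatives of `T_p` on `Γ₁(M)` (`DS/Per1/RepsGamma1.heckeRepsT`):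
`aMer (some j) = betaMer p (some j)`, `aMer none = betaMer p none ∘ slMer σ`
(`h ↦ (h ∘ σ)(p z)`), so that `QExpMer19.HasQExpMer.betaMer_none` computes its `q`-expansion.
For the diamond representatives (`conjReps`, `diamondReps`): `aMer () = slMer σ`.
-/
import Fermat.Agent.ES.HEQ.QExpMer19
import Fermat.Agent.DS.Per1.RepsGamma1

set_option autoImplicit false
set_option linter.dupNamespace false
set_option linter.unusedSectionVars false

open UpperHalfPlane hiding I
open scoped Manifold MatrixGroups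
open CongruenceSubgroup

noncomputable section

namespace Fermat.Agent.DS.G.ES.HEQ.RepsMer

open Fermat.Agent.X0 Fermat.Agent.X0.SurjPoint Fermat.Agent.ES.KUM
open Fermat.Agent.ES.HEQ.DoubleCoset27 Fermat.Agent.ES.HEQ.BetaMer19
open Fermat.Agent.DS.Per1.HeckeReps Fermat.Agent.DS.Per1.RepsGamma1

/-! ### Abstract representatives -/

section Abstract

variable {Γ : Subgroup SL(2, ℤ)} {I : Type*} (H : HeckeReps Γ I)

/-- All representatives have positive determinant. -/
def PosDet : Prop := ∀ i : I, 0 < (H.α i).det.val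

variable {H}

/-- `h ↦ h ∘ α_i` on meromorphic functions. -/
def aMer (hdet : PosDet H) (i : I) : MerH →+* MerH := glMer (H.α i) (hdet i)

theorem aMer_const (hdet : PosDet H) (i : I) (c : ℂ) :
    aMer hdet i (algebraMap HolH MerH (algebraMap ℂ HolH c)) =
      algebraMap HolH MerH (algebraMap ℂ HolH c) :=
  glMer_const _ _ c

theorem aMer_injective (hdet : PosDet H) (i : I) : Function.Injective (aMer hdet i) :=
  RingHom.injective _

/-- **The double coset relation in `MerH`** for abstract Hecke representatives: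
`(h ∘ α_i) ∘ γ = (h ∘ coc γ i) ∘ α_{perm γ i}`. -/
theorem slMer_aMer (hdet : PosDet H) (γ : Γ) (i : I) (h : MerH) :
    slMer (γ : SL(2, ℤ)) (aMer hdet i h) =
      aMer hdet (H.perm γ i) (slMer ((H.coc γ i : Γ) : SL(2, ℤ)) h) := by
  unfold aMer
  rw [← glMer_mapGL (γ : SL(2, ℤ)), ← glMer_mapGL ((H.coc γ i : Γ) : SL(2, ℤ)), ← glMer_mul,
    ← glMer_mul]
  exact glMer_congr (H.rel γ i) _ h

end Abstract

/-! ### Representatives coming from the normaliser (diamond operators) -/

section Conj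

variable (Γ : Subgroup SL(2, ℤ)) (σ : SL(2, ℤ)) (hσ : ∀ γ ∈ Γ, σ * γ * σ⁻¹ ∈ Γ)

theorem posDet_conjReps : PosDet (conjReps Γ σ hσ) := fun _ => det_mapGL_pos σ

theorem aMer_conjReps (u : Unit) (h : MerH) :
    aMer (posDet_conjReps Γ σ hσ) u h = slMer σ h :=
  glMer_mapGL σ h

theorem posDet_diamondReps (M : ℕ) (σ : SL(2, ℤ)) (hσ : σ ∈ Gamma0 M) :
    PosDet (diamondReps M σ hσ) := fun _ => det_mapGL_pos σ

theorem aMer_diamondReps (M : ℕ) (σ : SL(2, ℤ)) (hσ : σ ∈ Gamma0 M) (u : Unit) (h : MerH) :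
    aMer (posDet_diamondReps M σ hσ) u h = slMer σ h :=
  glMer_mapGL σ h

end Conj

/-! ### The representatives of `T_p` on `Γ₁(M)` -/

section Tp

variable {p : ℕ} [hp : Fact p.Prime]

theorem det_alphaT_pos (σ : SL(2, ℤ)) (i : Option (ZMod p)) : 0 < (alphaT σ i).det.val := by
  unfold alphaT
  exact det_mul_pos (det_mapGL_pos _) (det_glBeta_pos i)

variable (M : ℕ) (hpM : ¬ p ∣ M) (σ : SL(2, ℤ)) (hσ : σ ∈ Gamma0 M)
  (hσp : ((σ 1 1 : ℤ) : ZMod M) = (p : ZMod M))

theorem posDet_heckeRepsT : PosDet (heckeRepsT M hpM σ hσ hσp) := fun i => det_alphaT_pos σ i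

/-- `h ∘ α_i = (h ∘ s_i) ∘ β_i` with `s_i = 1` (`i` finite), `s_∞ = σ`. -/
theorem aMer_heckeRepsT (i : Option (ZMod p)) (h : MerH) :
    aMer (posDet_heckeRepsT M hpM σ hσ hσp) i h = betaMer p i (slMer (sgm σ i) h) := by
  unfold aMer betaMer
  rw [← glMer_mapGL (sgm σ i), ← glMer_mul]
  rfl

theorem aMer_heckeRepsT_some (j : ZMod p) (h : MerH) :
    aMer (posDet_heckeRepsT M hpM σ hσ hσp) (some j) h = betaMer p (some j) h := by
  rw [aMer_heckeRepsT, sgm_some, slMer_one]

theorem aMer_heckeRepsT_none (h : MerH) :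
    aMer (posDet_heckeRepsT M hpM σ hσ hσp) none h = betaMer p none (slMer σ h) := by
  rw [aMer_heckeRepsT, sgm_none]

end Tp

end Fermat.Agent.DS.G.ES.HEQ.RepsMer
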