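/-
DS / GEO, chapter G-HECKE (HEQ part), brick HEQ-G4b (helper20): twin of `ES/HEQ/RepGamma19` for
`Γ₁(M)`: **`Γ₁(M)` acts transitively on the Hecke representatives of `T_p`** (`p ∤ M`), and the
stabiliser of the index `∞` contains `Γ₀(p)`.

* `exists_rep_Gamma1 hpM i : ∃ γ ∈ Γ₁(M), perm γ none = i`;
* `repT`, `repT_mem`, `perm_repT` and the packaged form for helper78's `heckeRepsT`
  (`repG1`, `heckeRepsT_perm_repG1`) = the fields `rep`, `perm_rep` of `SigmaFamily.AnData`;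
* `heckeRepsT_perm_none_of_dvd` : `p ∣ γ 1 0 ⇒ perm γ none = none` = the hypothesis `hfix` of
  `SigmaFamily.separated_of_stab` for an upper level group `Γ' ≤ Γ₀(p)`.
-/
import Fermat.Agent.ES.HEQ.RepGamma19
import Fermat.Agent.DS.Per1.RepsGamma1

set_option autoImplicit false
set_option linter.dupNamespace false

open scoped MatrixGroups
open CongruenceSubgroup

namespace Fermat.Agent.DS.G.ES.HEQ.RepsTrans

open Fermat.Agent.ES.HEQ.DoubleCoset27 Fermat.Agent.ES.HEQ.RepGamma19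
open Fermat.Agent.DS.Per1.HeckeReps Fermat.Agent.DS.Per1.RepsGamma1

variable {p : ℕ} [hp : Fact p.Prime]

/-- `Γ₁(M)` acts transitively on the indices (`p ∤ M`). -/
theorem exists_rep_Gamma1 {M : ℕ} (hpM : ¬ p ∣ M) (i : Option (ZMod p)) :
    ∃ γ : SL(2, ℤ), γ ∈ Gamma1 M ∧ perm γ (none : Option (ZMod p)) = i := by
  cases i with
  | none => exact ⟨1, one_mem _, perm_one _⟩
  | some j =>
    -- `t p + s M = 1`
    have hcop0 : IsCoprime (p : ℤ) (M : ℤ) := by
      rw [Int.isCoprime_iff_gcd_eq_one, Int.gcd_natCast_natCast]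
      exact (Nat.Prime.coprime_iff_not_dvd hp.out).mpr hpM
    obtain ⟨t, s, hts⟩ := hcop0
    let γ : SL(2, ℤ) := ⟨!![1, (j.val : ℤ) - s; (M : ℤ), (M : ℤ) * (j.val : ℤ) + (p : ℤ) * t], by
      rw [Matrix.det_fin_two_of]
      linear_combination hts⟩
    let g : SL(2, ℤ) := ⟨!![(p : ℤ), -s; (M : ℤ), t], by
      rw [Matrix.det_fin_two_of]
      linear_combination hts⟩
    refine ⟨γ, ?_, ?_⟩
    · rw [Gamma1_mem]
      have h1 : ((t * (p : ℤ) + s * (M : ℤ) : ℤ) : ZMod M) = 1 := by rw [hts]; simp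
      push_cast at h1
      rw [ZMod.natCast_self, mul_zero, add_zero] at h1
      refine ⟨by simp [γ], ?_, by simp [γ]⟩
      simp only [γ, Matrix.of_apply, Matrix.cons_val',
        Matrix.cons_val_one, Matrix.cons_val_fin_one]
      push_cast
      rw [ZMod.natCast_self, zero_mul, zero_add, mul_comm]
      exact h1
    · have key : beta p none * (γ : Matrix (Fin 2) (Fin 2) ℤ)
          = (g : Matrix (Fin 2) (Fin 2) ℤ) * beta p (some j) := by
        ext a b
        fin_cases a <;> fin_cases b <;>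
          simp [γ, g, beta_none, beta_some, Matrix.mul_apply, Fin.sum_univ_two] <;> ring
      exact (eq_of_beta_mul key).1

/-- a representative `γ_i ∈ Γ₁(M)` with `β_∞ γ_i ∈ SL(2,ℤ) β_i`. -/
noncomputable def repT {M : ℕ} (hpM : ¬ p ∣ M) (i : Option (ZMod p)) : SL(2, ℤ) :=
  (exists_rep_Gamma1 hpM i).choose

theorem repT_mem {M : ℕ} (hpM : ¬ p ∣ M) (i : Option (ZMod p)) : repT hpM i ∈ Gamma1 M :=
  (exists_rep_Gamma1 hpM i).choose_spec.1

theorem perm_repT {M : ℕ} (hpM : ¬ p ∣ M) (i : Option (ZMod p)) :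
    perm (repT hpM i) (none : Option (ZMod p)) = i :=
  (exists_rep_Gamma1 hpM i).choose_spec.2

/-- the representatives as elements of `Γ₁(M)`. -/
noncomputable def repG1 {M : ℕ} (hpM : ¬ p ∣ M) (i : Option (ZMod p)) : Gamma1 M :=
  ⟨repT hpM i, repT_mem hpM i⟩

section Reps

variable (M : ℕ) (hpM : ¬ p ∣ M) (σ : SL(2, ℤ)) (hσ : σ ∈ Gamma0 M)
  (hσp : ((σ 1 1 : ℤ) : ZMod M) = (p : ZMod M))

/-- **transitivity** for helper78's representatives of `T_p` on `Γ₁(M)`. -/
theorem heckeRepsT_perm_repG1 (i : Option (ZMod p)) :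
    (heckeRepsT M hpM σ hσ hσp).perm (repG1 hpM i) none = i := by
  rw [heckeRepsT_perm]
  exact perm_repT hpM i

/-- elements of `Γ₁(M)` with lower left entry divisible by `p` fix the index `∞`. -/
theorem heckeRepsT_perm_none_of_dvd (γ : Gamma1 M) (h : (p : ℤ) ∣ (γ : SL(2, ℤ)) 1 0) :
    (heckeRepsT M hpM σ hσ hσp).perm γ none = none := by
  rw [heckeRepsT_perm]
  exact perm_none_of_dvd _ h

theorem heckeRepsT_perm_none_of_mem_Gamma0 (γ : Gamma1 M) (h : (γ : SL(2, ℤ)) ∈ Gamma0 p) :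
    (heckeRepsT M hpM σ hσ hσp).perm γ none = none := by
  apply heckeRepsT_perm_none_of_dvd
  rw [Gamma0_mem] at h
  exact (ZMod.intCast_zmod_eq_zero_iff_dvd _ p).mp h

end Reps

end Fermat.Agent.DS.G.ES.HEQ.RepsTrans
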