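/-
DS / GEO, chapter G-HECKE (HEQ part), brick HEQ-G3 (helper20): generic twin of
`ES/HEQ/RealBar19` (section `Hecke`) and of the `setup` of `ES/HEQ/KummerHeckeMain19`.

`AnData α β H` : the analytic data of a correspondence `(α, β) : F ⇉ F'` with abstract Hecke
representatives `H : HeckeReps Γ I` — realisations `an : F →+* MerH`, `an' : F' →+* MerH` with
`an' ∘ α = an`, `an' ∘ β = (· ∘ α_{i₀}) ∘ an`, `Γ`-invariance of `an`, transitivity of `Γ` on the
index set (`rep i`), separation of the translates of `an'`, and `#I = [F' : α F]`.  From it: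

* `AnData.sigma i := slMer (rep i) ∘ an'` : the complete family of embeddings of `F'` over `an`,
  `sigma_alpha`, `sigma_beta`, `sigma_injective`;
* `AnData.setup` : the `KummerHeckeAbs19.Setup` (right action `slMer`, constants `constHom`);
* `AnData.kummer_corr` : **Hecke equivariance of the Kummer map** `κ (α_* β^* x) = H.dMul (κ x)`;
* `separated_of_stab` : the separation hypothesis from "equal translates differ by an element of
  the upper level group `Γ'`" and "`Γ'` fixes `i₀`".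

Diamond-type operators (automorphisms `δ` of `F / K` with `an ∘ δ = (· ∘ σ) ∘ an`, `σ` normalising
`Γ`) act on `Pic⁰` through the Prelude's `SemilinearAut.ofAlgAut δ • ·`; `kummer_smul` :
`κ (δ • x) = (conjReps Γ σ hσ).dMul (κ x)`, i.e. `γ ↦ κ x (σ γ σ⁻¹)`.
-/
import Fermat.Agent.DS.G.ES.HEQ.RepsMer
import Fermat.Agent.DS.G.ES.HEQ.KummerHeckeG
import Fermat.Prelude.Def_AlgebraicCurve_BaseChangeGalois

set_option autoImplicit false
set_option linter.dupNamespace false
set_option linter.style.haveILetI false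
set_option linter.unusedSectionVars false

open UpperHalfPlane hiding I
open scoped Manifold MatrixGroups
open AlgebraicCurve

noncomputable section

namespace Fermat.Agent.DS.G.ES.HEQ.SigmaFamily

open Fermat.Agent.X0 Fermat.Agent.X0.SurjPoint Fermat.Agent.ES.KUM
open Fermat.Agent.ES.HEQ.KummerHeckeAbs19
open Fermat.Agent.DS.Per1.HeckeReps Fermat.Agent.DS.Per1.RepsGamma1
open Fermat.Agent.DS.G.ES.HEQ.RepsMer Fermat.Agent.DS.G.ES.HEQ.KummerHeckeG

/-! ### The analytic data of a correspondence -/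

section Data

variable {K F F' : Type*} [Field K] [Field F] [Field F'] [Algebra K F] [Algebra K F']
  {Γ : Subgroup SL(2, ℤ)} {I : Type*} [Fintype I]

/-- The analytic data of the correspondence `(α, β)` relative to the Hecke representatives `H`. -/
structure AnData (α β : F →ₐ[K] F') (H : HeckeReps Γ I) where
  /-- the representatives have positive determinant -/
  hdet : PosDet H
  /-- realisation of the lower function field -/
  an : F →+* MerH
  /-- realisation of the upper function field -/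
  an' : F' →+* MerH
  /-- the base index (`∞`) -/
  i₀ : I
  an'_alpha : ∀ x : F, an' (α x) = an x
  an'_beta : ∀ x : F, an' (β x) = aMer hdet i₀ (an x)
  invariant : ∀ (γ : Γ) (x : F), slMer (γ : SL(2, ℤ)) (an x) = an x
  /-- `Γ` is transitive on the index set -/
  rep : I → Γ
  perm_rep : ∀ i : I, H.perm (rep i) i₀ = i
  separated : ∀ γ γ' : Γ,
    (∀ y : F', slMer (γ : SL(2, ℤ)) (an' y) = slMer (γ' : SL(2, ℤ)) (an' y)) →
      H.perm γ i₀ = H.perm γ' i₀
  card_eq : Fintype.card I = finrankAlong K α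

/-- The separation hypothesis from the stabiliser of the upper realisation: if equal translates of
`an'` differ by an element of `Γ'` and `Γ'` fixes the base index, the translates are separated. -/
theorem separated_of_stab {H : HeckeReps Γ I} (an' : F' →+* MerH) (i₀ : I)
    (Γ' : Subgroup SL(2, ℤ))
    (hstab : ∀ γ γ' : Γ,
      (∀ y : F', slMer (γ : SL(2, ℤ)) (an' y) = slMer (γ' : SL(2, ℤ)) (an' y)) →
        ((γ' * γ⁻¹ : Γ) : SL(2, ℤ)) ∈ Γ')
    (hfix : ∀ δ : Γ, (δ : SL(2, ℤ)) ∈ Γ' → H.perm δ i₀ = i₀)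
    (γ γ' : Γ)
    (h : ∀ y : F', slMer (γ : SL(2, ℤ)) (an' y) = slMer (γ' : SL(2, ℤ)) (an' y)) :
    H.perm γ i₀ = H.perm γ' i₀ := by
  have h1 := hfix (γ' * γ⁻¹) (hstab γ γ' h)
  have h2 : γ' = (γ' * γ⁻¹) * γ := by rw [inv_mul_cancel_right]
  conv_rhs => rw [h2, H.perm_mul, h1]

variable {α β : F →ₐ[K] F'} {H : HeckeReps Γ I} (A : AnData α β H)

namespace AnData

/-- the complete family of embeddings `F' → MerH` over `an`. -/
def sigma (i : I) : F' →+* MerH := (slMer ((A.rep i : Γ) : SL(2, ℤ))).comp A.an'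

theorem sigma_apply (i : I) (y : F') :
    A.sigma i y = slMer ((A.rep i : Γ) : SL(2, ℤ)) (A.an' y) := rfl

theorem sigma_alpha (i : I) (x : F) : A.sigma i (α x) = A.an x := by
  rw [sigma_apply, A.an'_alpha, A.invariant]

theorem sigma_beta (i : I) (x : F) : A.sigma i (β x) = aMer A.hdet i (A.an x) := by
  rw [sigma_apply, A.an'_beta, slMer_aMer, A.perm_rep, A.invariant]

theorem sigma_injective : Function.Injective A.sigma := by
  intro i k h
  have h1 : ∀ y : F', slMer ((A.rep i : Γ) : SL(2, ℤ)) (A.an' y)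
      = slMer ((A.rep k : Γ) : SL(2, ℤ)) (A.an' y) := fun y => DFunLike.congr_fun h y
  have h2 := A.separated (A.rep i) (A.rep k) h1
  rwa [A.perm_rep, A.perm_rep] at h2

/-- The instance of the abstract analytic interface of `ES/HEQ/KummerHeckeAbs19`. -/
def setup : Setup (K := K) α β (fun γ : Γ => H.perm γ) (fun (γ : Γ) (i : I) => H.coc γ i)
    MerH ℂˣ where
  an := A.an
  σ := A.sigma
  R := fun γ => slMer (γ : SL(2, ℤ))
  B := aMer A.hdet
  c := constHom
  σ_alpha := A.sigma_alpha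
  σ_beta := A.sigma_beta
  σ_inj := A.sigma_injective
  card_eq := A.card_eq
  R_B := fun γ i h => slMer_aMer A.hdet γ i h
  R_c := fun γ a => slMer_const (γ : SL(2, ℤ)) (a : ℂ)
  B_c := fun i a => aMer_const A.hdet i (a : ℂ)

@[simp] theorem setup_an : A.setup.an = A.an := rfl

theorem setup_R (γ : Γ) (h : MerH) : A.setup.R γ h = slMer (γ : SL(2, ℤ)) h := rfl

theorem setup_c (a : ℂˣ) : A.setup.c a = constHom a := rfl

/-- **Hecke equivariance of the Kummer map** from the analytic data of the correspondence. -/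
theorem kummer_corr [HasPrincipalDivisors K F'] [CharZero F]
    (hα : α.toRingHom.IsIntegral) (hβ : β.toRingHom.IsIntegral)
    (hFI : FundamentalIdentityAlong K β hβ) (hfin : FiniteAlong K α)
    (hN : NormFormulaAlong K α hfin)
    {n : ℕ} {κ : ↥(Pic0.torsion K F n) → (Γ →* ℂˣ)} (hκ : IsKummerMap Γ A.an n κ)
    (x : ↥(Pic0.torsion K F n))
    (hx : Pic0.correspondence β α hβ hα hFI hfin hN (x : Pic0 K F) ∈ Pic0.torsion K F n) :
    κ ⟨Pic0.correspondence β α hβ hα hFI hfin hN (x : Pic0 K F), hx⟩ = H.dMul (κ x) :=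
  kummer_corr' A.setup A.setup_R A.setup_c hα hβ hFI hfin hN hκ x hx

end AnData

end Data

/-! ### Diamond-type operators: automorphisms of the function field -/

section Diamond

variable {K F : Type*} [Field K] [Field F] [Algebra K F]
  {Γ : Subgroup SL(2, ℤ)}

/-- **Equivariance of the Kummer map for an automorphism** `δ` of `F / K` realised by
`h ↦ h ∘ σ`, `σ` normalising `Γ`: `κ (δ • x) (γ) = κ x (σ γ σ⁻¹)`. -/
theorem kummer_smul (δ : F ≃ₐ[K] F) (σ : SL(2, ℤ)) (hσ : ∀ γ ∈ Γ, σ * γ * σ⁻¹ ∈ Γ)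
    {an : F →+* MerH} (han : ∀ x : F, an (δ x) = slMer σ (an x))
    {n : ℕ} {κ : ↥(Pic0.torsion K F n) → (Γ →* ℂˣ)} (hκ : IsKummerMap Γ an n κ)
    (x : ↥(Pic0.torsion K F n)) :
    κ (SemilinearAut.ofAlgAut δ • x) = (conjReps Γ σ hσ).dMul (κ x) := by
  classical
  set g : SemilinearAut K F := SemilinearAut.ofAlgAut δ with hg
  obtain ⟨D, f, hD, hf, hDf⟩ := exists_rep_div n x
  obtain ⟨⟨h, hh0, hhn⟩, hchar⟩ := hκ x D f hD hf hDf
  -- the transported datum
  have hD' : Pic0.mk (SemilinearAut.degZeroSMulHom g D)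
      = ((g • x : ↥(Pic0.torsion K F n)) : Pic0 K F) := by
    rw [SemilinearAut.coe_torsion_smul, ← hD, SemilinearAut.pic0_smul_mk]
  have hf' : δ f ≠ 0 := (map_ne_zero δ).mpr hf
  have hDf' : ∀ v : Place K F,
      ((n : ℤ) • ((SemilinearAut.degZeroSMulHom g D : Divisor.degZero (K := K) (F := F)) :
        Divisor K F)) v = v.ord (δ f) := by
    intro v
    rw [SemilinearAut.coe_degZeroSMulHom, ← smul_comm, SemilinearAut.divisor_smul_apply,
      hDf (g⁻¹ • v)]
    have h1 := SemilinearAut.ord_smul g (g⁻¹ • v) f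
    rw [smul_inv_smul] at h1
    exact h1.symm
  obtain ⟨-, hchar'⟩ := hκ (g • x) (SemilinearAut.degZeroSMulHom g D) (δ f) hD' hf' hDf'
  have hroot0 : slMer σ h ≠ 0 := (map_ne_zero (slMer σ)).mpr hh0
  have hrootn : slMer σ h ^ n = an (δ f) := by rw [← map_pow, hhn, han]
  ext1 γ
  have e1 := hchar' _ hroot0 hrootn γ
  -- `(h ∘ σ) ∘ γ = (h ∘ (σ γ σ⁻¹)) ∘ σ`
  have e2 : slMer (γ : SL(2, ℤ)) (slMer σ h)
      = constHom (κ x ⟨σ * (γ : SL(2, ℤ)) * σ⁻¹, hσ _ γ.2⟩) * slMer σ h := by
    have h3 := hchar h hh0 hhn ⟨σ * (γ : SL(2, ℤ)) * σ⁻¹, hσ _ γ.2⟩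
    have h4 : slMer (γ : SL(2, ℤ)) (slMer σ h)
        = slMer σ (slMer (σ * (γ : SL(2, ℤ)) * σ⁻¹) h) := by
      rw [← slMer_mul, ← slMer_mul, inv_mul_cancel_right]
    rw [h4, h3, map_mul, slMer_constHom]
  have e3 : constHom (κ (g • x) γ)
      = constHom (κ x ⟨σ * (γ : SL(2, ℤ)) * σ⁻¹, hσ _ γ.2⟩) :=
    mul_right_cancel₀ hroot0 (e1.symm.trans e2)
  rw [HeckeReps.dMul_apply, Fintype.prod_unique]
  exact constHom_injective e3

end Diamond

end Fermat.Agent.DS.G.ES.HEQ.SigmaFamily
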